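import Fermat.Agent.CommutingPolynomials.Quadratic
import Mathlib.Tactic.FieldSimp

/-!
# Commuting polynomials of all degrees

An affine map moves the one of degree two to `X² + c`; then the one of degree three forces
`c = 0` or `c = -2`.
-/

set_option autoImplicit false

noncomputable section

open Polynomial

namespace FA.CommutingPolynomials

variable {K : Type*} [Field K] [CharZero K]

omit [CharZero K] in
theorem exists_affine_quad {P : K[X]} (hP : P.natDegree = 2) (h2 : (2 : K) ≠ 0) :
    ∃ a b c : K, a ≠ 0 ∧ P.comp (C a * X + C b) = (C a * X + C b).comp (quad c) := by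
  have hA : P.coeff 2 ≠ 0 := by
    rw [← hP]; exact leadingCoeff_ne_zero.2 fun e => by simp [e] at hP
  set A := P.coeff 2
  set B := P.coeff 1
  set D := P.coeff 0
  have hPe : P = C A * X ^ 2 + C B * X + C D := by
    ext k
    match k with
    | 0 => simp [A, B, D, coeff_X_pow, coeff_X]
    | 1 => simp [A, B, D, coeff_X_pow]
    | 2 => simp [A, B, D, coeff_X_pow]
    | k + 3 => simp [coeff_eq_zero_of_natDegree_lt (p := P) (show P.natDegree < k + 3 by omega)]
  refine ⟨1 / A, -B / (2 * A), A * (D - B ^ 2 / (4 * A) + B / (2 * A)), one_div_ne_zero hA, ?_⟩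
  rw [hPe]
  simp only [quad, add_comp, mul_comp, C_comp, X_comp, pow_comp]
  have e₁ : C A * C (1 / A) = 1 := by rw [← C_mul, mul_one_div_cancel hA, C_1]
  have e₂ : 2 * (C A * C (-B / (2 * A))) = -C B := by
    rw [← map_ofNat C 2, ← C_mul, ← C_mul, ← C_neg]
    congr 1
    field_simp
  have e₃ : C A * C (-B / (2 * A)) ^ 2 + C B * C (-B / (2 * A)) + C D =
      C (1 / A) * C (A * (D - B ^ 2 / (4 * A) + B / (2 * A))) + C (-B / (2 * A)) := by
    simp only [← C_pow, ← C_mul, ← C_add]
    congr 1
    have h4 : (4 : K) ≠ 0 := by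
      rw [show (4 : K) = 2 * 2 by norm_num]; exact mul_ne_zero h2 h2
    field_simp
    ring
  linear_combination e₃ + C (1 / A) * X ^ 2 * e₁ + C (1 / A) * X * e₂

omit [CharZero K] in
theorem conjugate_commute {P S : K[X]} {a b c : K} (ha : a ≠ 0)
    (hP : P.comp (C a * X + C b) = (C a * X + C b).comp (quad c)) (hS : S.comp P = P.comp S) :
    ∃ R : K[X], S.comp (C a * X + C b) = (C a * X + C b).comp R ∧ R.natDegree = S.natDegree ∧
      R.comp (quad c) = (quad c).comp R := by
  set L := C a * X + C b with hL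
  set M := C a⁻¹ * (X - C b) with hM
  have hLM : L.comp M = X := by
    simp only [hL, hM, add_comp, mul_comp, C_comp, X_comp]
    rw [← mul_assoc, ← C_mul, mul_inv_cancel₀ ha, C_1]
    ring
  have hLc : ∀ {U V : K[X]}, L.comp U = L.comp V → U = V := fun {U V} e => by
    simpa [hL, C_eq_zero, ha] using e
  obtain ⟨R, hR⟩ : ∃ R, R = M.comp (S.comp L) := ⟨_, rfl⟩
  have hSL : S.comp L = L.comp R := by rw [hR, ← comp_assoc, hLM, X_comp]
  refine ⟨R, hSL, ?_, hLc ?_⟩
  · rw [hR, natDegree_comp, natDegree_comp, hM, natDegree_C_mul (inv_ne_zero ha),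
      natDegree_X_sub_C, hL, natDegree_linear ha, one_mul, mul_one]
  · calc L.comp (R.comp (quad c)) = S.comp (P.comp L) := by
          rw [← comp_assoc, ← hSL, comp_assoc, ← hP]
      _ = P.comp (L.comp R) := by rw [← comp_assoc, hS, comp_assoc, hSL]
      _ = L.comp ((quad c).comp R) := by rw [← comp_assoc, hP, comp_assoc]

theorem family_classification {Q : ℕ → K[X]} (hdeg : ∀ n, 0 < n → (Q n).natDegree = n)
    (hcomm : ∀ m n, 0 < m → 0 < n → (Q m).comp (Q n) = (Q n).comp (Q m)) :
    ∃ a b : K, a ≠ 0 ∧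
      ((∀ n, 0 < n → (Q n).comp (C a * X + C b) = (C a * X + C b).comp (X ^ n)) ∨
        ∀ n : ℕ, 0 < n →
          (Q n).comp (C a * X + C b) = (C a * X + C b).comp (Chebyshev.C K n)) := by
  obtain ⟨a, b, c, ha, h⟩ := exists_affine_quad (hdeg 2 two_pos) two_ne_zero
  refine ⟨a, b, ha, ?_⟩
  have hconj : ∀ n, 0 < n → ∃ R : K[X], (Q n).comp (C a * X + C b) = (C a * X + C b).comp R ∧
      R.natDegree = n ∧ R.comp (quad c) = (quad c).comp R := fun n hn => by
    simpa only [hdeg n hn] using conjugate_commute ha h (hcomm n 2 hn two_pos)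
  obtain ⟨R, -, hR3, hR⟩ := hconj 3 three_pos
  rcases iterate_or_special hR3 (by norm_num) hR with ⟨k, hk⟩ | rfl | rfl
  · have := natDegree_iterate c k
    rw [← hk, hR3] at this
    cases k with
    | zero => norm_num at this
    | succ k => rw [pow_succ] at this; omega
  · refine Or.inl fun n hn => ?_
    obtain ⟨R, e, hd, hR⟩ := hconj n hn
    rw [e, eq_pow_of_commute_sq (by omega) hR, hd]
  · refine Or.inr fun n hn => ?_
    obtain ⟨R, e, hd, hR⟩ := hconj n hn
    rw [e, eq_chebyshev_of_commute (by omega) hR, hd]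

theorem commutant_unique_general {P Q R : K[X]} (hP : P.natDegree = 2) (hn : Q.natDegree ≠ 0)
    (hd : R.natDegree = Q.natDegree) (hQ : Q.comp P = P.comp Q) (hR : R.comp P = P.comp R) :
    Q = R := by
  obtain ⟨a, b, c, ha, h⟩ := exists_affine_quad hP two_ne_zero
  obtain ⟨Q', eQ, dQ, cQ⟩ := conjugate_commute ha h hQ
  obtain ⟨R', eR, dR, cR⟩ := conjugate_commute ha h hR
  refine comp_left_cancel (P := C a * X + C b) (by rw [natDegree_linear ha]; norm_num) ?_
  rw [eQ, eR, eq_of_commute (by omega) (by omega) cQ cR]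

end FA.CommutingPolynomials
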