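import Mathlib.Algebra.Polynomial.Expand
import Mathlib.RingTheory.Polynomial.Chebyshev
import Mathlib.Tactic.LinearCombination

/-!
# Polynomials commuting with `X² + c`

An even one is `R (X² + c)` with `R` again commuting.  An odd one `Q = X E (X²)` has
`Q ∓ c = (X ∓ c) E (±X - c)²`, which gives Chebyshev's differential equation
`(X² - c²) Q'² = n² (Q² - c²)`; composed with `X² + c` this forces `c = -2`.
-/

set_option autoImplicit false

noncomputable section

open Polynomial

namespace FA.CommutingPolynomials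

variable {K : Type*} [Field K] [CharZero K]

/-- `X² + c`. -/
def quad (c : K) : K[X] := X ^ 2 + C c

omit [CharZero K] in
theorem natDegree_quad (c : K) : (quad c).natDegree = 2 := natDegree_X_pow_add_C

omit [CharZero K] in
theorem quad_comp (c : K) (R : K[X]) : (quad c).comp R = R ^ 2 + C c := by simp [quad]

omit [CharZero K] in
theorem comp_left_cancel {A B P : K[X]} (hP : P.natDegree ≠ 0) (h : A.comp P = B.comp P) :
    A = B := by
  rcases comp_eq_zero_iff.1 (show (A - B).comp P = 0 by rw [sub_comp, h, sub_self]) with h | ⟨-, h⟩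
  · exact sub_eq_zero.1 h
  · exact absurd (by rw [h]; exact natDegree_C _) hP

omit [CharZero K] in
theorem monic_of_commute {c : K} {Q : K[X]} (hn : Q.natDegree ≠ 0)
    (h : Q.comp (quad c) = (quad c).comp Q) : Q.Monic := by
  have := congrArg leadingCoeff h
  rw [leadingCoeff_comp (by rw [natDegree_quad]; norm_num), leadingCoeff_comp hn, natDegree_quad,
    show (quad c).leadingCoeff = 1 from monic_X_pow_add_C c (by norm_num), one_pow, mul_one,
    one_mul, sq] at this
  exact (mul_right_cancel₀ (leadingCoeff_ne_zero.2 fun e => hn (by simp [e]))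
    ((one_mul _).trans this)).symm

theorem eq_of_commute {c : K} {Q R : K[X]} (hn : Q.natDegree ≠ 0)
    (hd : R.natDegree = Q.natDegree) (hQ : Q.comp (quad c) = (quad c).comp Q)
    (hR : R.comp (quad c) = (quad c).comp R) : Q = R := by
  have mQ := monic_of_commute hn hQ
  have mR := monic_of_commute (hd ▸ hn) hR
  by_contra hne
  have hD : Q - R ≠ 0 := sub_ne_zero.2 hne
  have hlt : (Q - R).natDegree < Q.natDegree := natDegree_lt_natDegree hD
    (degree_sub_lt_left (by rw [degree_eq_natDegree mQ.ne_zero, degree_eq_natDegree mR.ne_zero, hd])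
      mQ.ne_zero (by rw [mQ.leadingCoeff, mR.leadingCoeff]))
  have hsum : (Q + R).natDegree = Q.natDegree := by
    refine le_antisymm (natDegree_add_le_of_degree_le le_rfl hd.le) (le_natDegree_of_ne_zero ?_)
    rw [coeff_add, mQ.coeff_natDegree, ← hd, mR.coeff_natDegree]
    norm_num
  have key : (Q - R).comp (quad c) = (Q - R) * (Q + R) := by
    rw [sub_comp, hQ, hR, quad_comp, quad_comp]; ring
  have := congrArg natDegree key
  rw [natDegree_comp, natDegree_quad,
    natDegree_mul hD (fun e => hn (by rw [← hsum, e, natDegree_zero])), hsum] at this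
  omega

omit [CharZero K] in
theorem commute_parity {c : K} {Q : K[X]} (h : Q.comp (quad c) = (quad c).comp Q) :
    Q.comp (-X) = Q ∨ Q.comp (-X) = -Q := by
  refine sq_eq_sq_iff_eq_or_eq_neg.1 ?_
  have e := congrArg (fun R : K[X] => R.comp (-X)) h
  simp only [comp_assoc, show (quad c).comp (-X) = quad c by simp [quad]] at e
  rw [h, quad_comp, quad_comp] at e
  linear_combination -e

theorem exists_eq_comp_sq {Q : K[X]} (h : Q.comp (-X) = Q) : ∃ G : K[X], Q = G.comp (X ^ 2) := by
  refine ⟨contract 2 Q, ?_⟩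
  rw [← expand_eq_comp_X_pow]
  ext k
  rw [coeff_expand two_pos]
  split_ifs with hk
  · rw [coeff_contract two_ne_zero, Nat.div_mul_cancel hk]
  · have e := congrArg (fun R : K[X] => R.coeff k) h
    simp only [show (-X : K[X]) = C (-1) * X by simp, comp_C_mul_X_coeff,
      (Nat.not_even_iff_odd.1 fun he => hk he.two_dvd).neg_one_pow] at e
    linear_combination (-1 / 2 : K) * e

/-- The odd case forces Chebyshev's equation and `c = -2`. -/
theorem odd_case {c : K} {Q : K[X]} (hn : 2 ≤ Q.natDegree)
    (h : Q.comp (quad c) = (quad c).comp Q) (hodd : Q.comp (-X) = -Q) : c = 0 ∨ c = -2 := by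
  by_contra hc
  push Not at hc
  obtain ⟨Q₁, hQ₁⟩ : X ∣ Q := by
    rw [X_dvd_iff, coeff_zero_eq_eval_zero]
    have := congrArg (eval 0) hodd
    simp [eval_comp] at this
    linear_combination (1 / 2 : K) * this
  obtain ⟨G, hG⟩ : ∃ G : K[X], Q₁ = G.comp (X ^ 2) := by
    refine exists_eq_comp_sq (mul_left_cancel₀ (neg_ne_zero.2 X_ne_zero) ?_)
    rw [hQ₁, mul_comp, X_comp] at hodd
    linear_combination hodd
  rw [hG] at hQ₁
  have hG0 : G ≠ 0 := fun e => by simp [hQ₁, e] at hn
  set e := G.natDegree
  have hne : Q.natDegree = 2 * e + 1 := by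
    rw [hQ₁, natDegree_mul X_ne_zero (fun he => by simp [hQ₁, he] at hn), natDegree_comp,
      natDegree_X_pow, natDegree_X]
    ring
  have mQ := monic_of_commute (by omega) h
  have hPdeg : (quad c).natDegree ≠ 0 := by rw [natDegree_quad]; norm_num
  set R₁ := G.comp (X - C c) with hR₁
  set R₂ := G.comp (-X - C c) with hR₂
  have hm : Q - C c = (X - C c) * R₁ ^ 2 := by
    refine comp_left_cancel hPdeg ?_
    rw [sub_comp, C_comp, h, quad_comp, mul_comp, pow_comp, hR₁, comp_assoc, sub_comp, X_comp,
      C_comp, quad, add_sub_cancel_right, hQ₁]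
    ring_nf
  have hp : Q + C c = (X + C c) * R₂ ^ 2 := by
    have := congrArg (fun R : K[X] => R.comp (-X)) hm
    simp only [sub_comp, C_comp, mul_comp, pow_comp, X_comp, hR₁, comp_assoc, hodd, ← hR₂] at this
    linear_combination -this
  have hd₁ : R₁ ∣ derivative Q := by
    have := congrArg derivative hm
    simp only [derivative_sub, derivative_C, sub_zero, derivative_mul, derivative_pow,
      derivative_X] at this
    exact ⟨R₁ + (X - C c) * (2 * derivative R₁), by rw [this]; simp [map_ofNat]; ring⟩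
  have hd₂ : R₂ ∣ derivative Q := by
    have := congrArg derivative hp
    simp only [derivative_add, derivative_C, add_zero, derivative_mul, derivative_pow,
      derivative_X] at this
    exact ⟨R₂ + (X + C c) * (2 * derivative R₂), by rw [this]; simp [map_ofNat]; ring⟩
  have hcop : IsCoprime R₁ R₂ := by
    have hQQ : IsCoprime (Q - C c) (Q + C c) := ⟨C (-1 / (2 * c)), C (1 / (2 * c)), by
      have e₁ : C (1 / (2 * c)) * C (2 * c) = 1 := by
        rw [← C_mul, one_div_mul_cancel (mul_ne_zero two_ne_zero hc.1), C_1]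
      rw [neg_div, C_neg]
      simp only [C_mul, map_ofNat] at e₁ ⊢
      linear_combination e₁⟩
    exact (hQQ.of_isCoprime_of_dvd_left (Dvd.intro_left _ (by rw [hm, sq, mul_assoc]))
      ).of_isCoprime_of_dvd_right (Dvd.intro_left _ (by rw [hp, sq, mul_assoc]))
  obtain ⟨M, hM⟩ := hcop.mul_dvd hd₁ hd₂
  have hdd : (derivative Q).natDegree = 2 * e := by rw [natDegree_derivative, hne]; omega
  have hk : M.natDegree = 0 := by
    have hR0 : derivative Q ≠ 0 := fun e' => by rw [e', natDegree_zero] at hdd; omega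
    rw [hM] at hR0 hdd
    simp only [mul_ne_zero_iff] at hR0
    rw [natDegree_mul (mul_ne_zero hR0.1.1 hR0.1.2) hR0.2, natDegree_mul hR0.1.1 hR0.1.2, hR₁,
      hR₂, natDegree_comp, natDegree_comp, natDegree_X_sub_C,
      show (-X - C c : K[X]).natDegree = 1 by rw [← neg_add', natDegree_neg, natDegree_X_add_C]]
      at hdd
    omega
  obtain ⟨k, rfl⟩ := natDegree_eq_zero.1 hk
  have I₁ : (X ^ 2 - C c ^ 2) * derivative Q ^ 2 = C k ^ 2 * (Q ^ 2 - C c ^ 2) := by
    rw [show Q ^ 2 - C c ^ 2 = (Q - C c) * (Q + C c) by ring, hm, hp, hM]; ring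
  have D := congrArg derivative h
  rw [derivative_comp, quad_comp, quad] at D
  simp [derivative_pow] at D
  rw [show C (2 : K) = 2 from map_ofNat C 2] at D
  have hQ0 : (4 : K[X]) * Q ^ 2 ≠ 0 := mul_ne_zero (by norm_num) (pow_ne_zero _ mQ.ne_zero)
  have I₂ : (X ^ 2 + 2 * C c) * derivative Q ^ 2 = C k ^ 2 * (Q ^ 2 + 2 * C c) := by
    refine mul_left_cancel₀ hQ0 ?_
    have J := congrArg (fun R : K[X] => R.comp (quad c)) I₁
    simp only [mul_comp, sub_comp, pow_comp, X_comp, C_comp, h, quad_comp] at J
    simp only [quad] at D J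
    linear_combination
      -(X ^ 2 + 2 * C c) * ((derivative Q).comp (X ^ 2 + C c) * (2 * X) + 2 * Q * derivative Q) * D
        + 4 * J
  have hsq : (C (c * (c + 2))) * (derivative Q ^ 2 - C (k ^ 2)) = 0 := by
    simp only [C_mul, C_add, C_pow, map_ofNat]
    linear_combination I₂ - I₁
  rcases mul_eq_zero.1 hsq with hz | hz
  · rcases mul_eq_zero.1 (C_eq_zero.1 hz) with h0 | h0
    · exact hc.1 h0
    · exact hc.2 (eq_neg_of_add_eq_zero_left h0)
  · have := congrArg natDegree (sub_eq_zero.1 hz)
    rw [natDegree_pow, hdd, natDegree_C] at this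
    omega

omit [CharZero K] in
theorem iterate_comp (c : K) (k : ℕ) (Y Z : K[X]) :
    (((quad c).comp)^[k] Y).comp Z = ((quad c).comp)^[k] (Y.comp Z) := by
  induction k with
  | zero => rfl
  | succ k ih => rw [Function.iterate_succ_apply', Function.iterate_succ_apply', comp_assoc, ih]

omit [CharZero K] in
theorem commute_iterate (c : K) (k : ℕ) :
    (((quad c).comp)^[k] X).comp (quad c) = (quad c).comp (((quad c).comp)^[k] X) := by
  rw [iterate_comp, X_comp, ← Function.iterate_succ_apply' ((quad c).comp),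
    Function.iterate_succ_apply, comp_X]

omit [CharZero K] in
theorem natDegree_iterate (c : K) (k : ℕ) : (((quad c).comp)^[k] X).natDegree = 2 ^ k := by
  induction k with
  | zero => simp
  | succ k ih => rw [Function.iterate_succ_apply', natDegree_comp, natDegree_quad, ih, pow_succ']

theorem iterate_or_special {c : K} : ∀ {n : ℕ} {Q : K[X]}, Q.natDegree = n → n ≠ 0 →
    Q.comp (quad c) = (quad c).comp Q → (∃ k, Q = ((quad c).comp)^[k] X) ∨ c = 0 ∨ c = -2 := by
  intro n
  induction n using Nat.strong_induction_on with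
  | _ n ih =>
    intro Q hn h0 h
    rcases commute_parity h with he | ho
    · obtain ⟨G, hG⟩ := exists_eq_comp_sq he
      set R := G.comp (X - C c)
      have hQR : Q = R.comp (quad c) := by simp [R, comp_assoc, quad, hG]
      have hPdeg : (quad c).natDegree ≠ 0 := by rw [natDegree_quad]; norm_num
      have hR : R.comp (quad c) = (quad c).comp R := comp_left_cancel hPdeg (by
        rw [comp_assoc (quad c) R, ← hQR, h])
      have hdR : n = R.natDegree * 2 := by rw [← hn, hQR, natDegree_comp, natDegree_quad]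
      rcases ih _ (by omega) rfl (by omega) hR with ⟨k, hk⟩ | hc
      · exact Or.inl ⟨k + 1, by rw [hQR, hk, iterate_comp, X_comp, Function.iterate_succ_apply,
          comp_X]⟩
      · exact Or.inr hc
    · rcases Nat.lt_or_ge n 2 with h1 | h2
      · refine Or.inl ⟨0, ?_⟩
        have hm := monic_of_commute (hn ▸ h0) h
        obtain ⟨b, hb⟩ : ∃ b, Q = X + C b := ⟨_, hm.eq_X_add_C (by omega)⟩
        have := congrArg (eval 0) ho
        simp [hb] at this
        rw [hb, show b = 0 by linear_combination (1 / 2 : K) * this]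
        simp
      · exact Or.inr (odd_case (by omega) h ho)

theorem natDegree_chebyshevC (n : ℕ) : (Chebyshev.C K n).natDegree = n := by
  have h2 : (2 * X : K[X]) = C (2 : K) * X := by rw [map_ofNat]
  have := congrArg natDegree (Chebyshev.C_comp_two_mul_X K n)
  rw [natDegree_comp, h2, natDegree_C_mul_X _ two_ne_zero, mul_one, ← map_ofNat C 2,
    natDegree_C_mul two_ne_zero, Chebyshev.natDegree_T, Int.natAbs_natCast] at this
  exact this

omit [CharZero K] in
theorem commute_chebyshevC (m n : ℕ) :
    (Chebyshev.C K m).comp (Chebyshev.C K n) = (Chebyshev.C K n).comp (Chebyshev.C K m) := by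
  rw [← Chebyshev.C_mul, ← Chebyshev.C_mul, mul_comm]

omit [CharZero K] in
theorem quad_neg_two : quad (-2 : K) = Chebyshev.C K (2 : ℕ) := by
  rw [show ((2 : ℕ) : ℤ) = 2 from rfl, Chebyshev.C_two, quad, map_neg, map_ofNat, sub_eq_add_neg]

theorem eq_pow_of_commute_sq {Q : K[X]} (hn : Q.natDegree ≠ 0)
    (h : Q.comp (quad 0) = (quad 0).comp Q) : Q = X ^ Q.natDegree :=
  eq_of_commute hn (natDegree_X_pow _) h (by simp [quad, ← pow_mul, mul_comm])

theorem eq_chebyshev_of_commute {Q : K[X]} (hn : Q.natDegree ≠ 0)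
    (h : Q.comp (quad (-2)) = (quad (-2)).comp Q) : Q = Chebyshev.C K Q.natDegree :=
  eq_of_commute hn (natDegree_chebyshevC _) h
    (by rw [quad_neg_two]; exact commute_chebyshevC _ _)

theorem commutant {c : K} {Q : K[X]} (hn : Q.natDegree ≠ 0) :
    Q.comp (quad c) = (quad c).comp Q ↔
      (c = 0 ∧ ∃ n : ℕ, Q = X ^ n) ∨ (c = -2 ∧ ∃ n : ℕ, Q = Chebyshev.C K n) ∨
        ∃ k, Q = ((quad c).comp)^[k] X := by
  constructor
  · intro h
    rcases iterate_or_special rfl hn h with hk | rfl | rfl
    · exact Or.inr (Or.inr hk)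
    · exact Or.inl ⟨rfl, _, eq_pow_of_commute_sq hn h⟩
    · exact Or.inr (Or.inl ⟨rfl, _, eq_chebyshev_of_commute hn h⟩)
  · rintro (⟨rfl, n, rfl⟩ | ⟨rfl, n, rfl⟩ | ⟨k, rfl⟩)
    · simp [quad, ← pow_mul, mul_comm]
    · rw [quad_neg_two]; exact commute_chebyshevC _ _
    · exact commute_iterate c k

end FA.CommutingPolynomials
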